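import Fermat.Agent.TraceNF.DetLevel
import Fermat.Agent.IsogenyNF.PlaceLevel
import Fermat.Agent.HasseBound.Extensions

/-!
# A Frobenius element at a given place acts with trace `N v + 1 - #W(k_v)`

At a place `v` of good reduction prime to `N` a lift of a Frobenius element of the field of the
points killed by `N` commutes on these points with the `N v`-power map of the reduced curve, whose
trace is `N v + 1` minus the number of points over the residue field; with the cyclotomic
determinant this gives the trace and the determinant modulo `N`.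
-/

set_option autoImplicit false
set_option linter.unusedSectionVars false

noncomputable section

namespace FA.TraceNF

open WeierstrassCurve NumberField IsDedekindDomain Matrix FA.IsogenyNF FA.Local FA.Frob
  FA.HasseBound
open FA.ClassNumberOne (xP yP)
open scoped WeierstrassCurve.Affine Pointwise

universe u v

/-- **The trace of Frobenius at a place**, by counting the points of the reduced curve. -/
def frobTrace {K : Type u} [Field K] [NumberField K] (W₀ : WeierstrassCurve (𝓞 K))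
    (w : HeightOneSpectrum (𝓞 K)) : ℤ :=
  (Ideal.absNorm w.asIdeal : ℤ) + 1 -
    Nat.card (W₀.map (Ideal.Quotient.mk w.asIdeal)).toAffine.Point

/-- **Hasse's bound at a place of good reduction.** -/
theorem frobTrace_sq_le {K : Type u} [Field K] [NumberField K] (W₀ : WeierstrassCurve (𝓞 K))
    {w : HeightOneSpectrum (𝓞 K)} (hΔ : W₀.Δ ∉ w.asIdeal) :
    frobTrace W₀ w ^ 2 ≤ 4 * (Ideal.absNorm w.asIdeal : ℤ) := by
  have := w.isMaximal
  let _ := Ideal.Quotient.field w.asIdeal
  have : Finite (𝓞 K ⧸ w.asIdeal) := Ideal.finiteQuotientOfFreeOfNeBot _ w.ne_bot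
  let _ := Fintype.ofFinite (𝓞 K ⧸ w.asIdeal)
  have : (W₀.map (Ideal.Quotient.mk w.asIdeal)).IsElliptic := ⟨by
    rw [map_Δ, isUnit_iff_ne_zero, Ne, Ideal.Quotient.eq_zero_iff_mem]
    exact hΔ⟩
  have h := sq_le_of_finite (W₀.map (Ideal.Quotient.mk w.asIdeal))
  rwa [← Nat.card_eq_fintype_card, show Nat.card (𝓞 K ⧸ w.asIdeal) = Ideal.absNorm w.asIdeal
    from (Ideal.absNorm_apply _).symm] at h

variable {K : Type u} [Field K] [NumberField K] {Kb : Type v} [Field Kb] [DecidableEq Kb]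
  [Algebra K Kb] [CharZero Kb] [IsAlgClosed Kb] [Algebra.IsAlgebraic K Kb]

section level

variable (W : WeierstrassCurve K) [W.IsElliptic]

variable (Kb) in
/-- The field of the points killed by `N` and of the `N`-th roots of unity. -/
abbrev levelField (N : ℕ) : IntermediateField K Kb :=
  IntermediateField.adjoin K (frobSet (Kb := Kb) W N)

theorem finiteDimensional_levelField {N : ℕ} (hN : N ≠ 0) :
    FiniteDimensional K (levelField Kb W N) := by
  have : Finite (frobSet (Kb := Kb) W N) := (finite_frobSet W hN).to_subtype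
  exact IntermediateField.finiteDimensional_adjoin fun x _ => Algebra.IsIntegral.isIntegral x

theorem isGalois_levelField (N : ℕ) : IsGalois K (levelField Kb W N) := by
  have : IsAlgClosure K Kb := ⟨inferInstance, inferInstance⟩
  have : IsGalois K Kb := IsAlgClosure.isGalois K Kb
  have : Normal K (levelField Kb W N) := IntermediateField.normal_iff_forall_map_le'.2 fun τ => by
    rw [IntermediateField.adjoin_map]
    refine IntermediateField.adjoin.mono K _ _ ?_
    rintro _ ⟨b, (((⟨P, hP, rfl⟩ | ⟨P, hP, rfl⟩) | hb) | ⟨c, hc, rfl⟩), rfl⟩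
    · exact Or.inl (Or.inl (Or.inl ⟨τ • P,
        by show N • τ • P = 0; rw [← smul_nsmul', hP, smul_zero], xP_smul τ P⟩))
    · exact Or.inl (Or.inl (Or.inr ⟨τ • P,
        by show N • τ • P = 0; rw [← smul_nsmul', hP, smul_zero], yP_smul τ P⟩))
    · refine Or.inl (Or.inr ?_)
      show (τ b) ^ N = 1
      rw [← map_pow, show b ^ N = 1 from hb, map_one]
    · exact Or.inr ⟨c, hc, (τ.commutes c).symm⟩
  exact ⟨⟩

/-- **The quadratic equation of `σ`, with its trace.** -/
theorem quadratic_trQ {σ : Kb ≃ₐ[K] Kb} {N : ℕ} (F : FrobPlace W σ N)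
    [CharP (Res F.A) F.l] [Fact F.l.Prime] [IsAlgClosed (Res F.A)]
    [(redCurve F.A (W.baseChange Kb).toAffine F.int).IsElliptic] [DecidableEq (Res F.A)]
    [DecidableEq (FF (redCurve F.A (W.baseChange Kb).toAffine F.int))]
    (hW : (redCurve F.A (W.baseChange Kb).toAffine F.int).map
        (iterateFrobenius (Res F.A) F.l F.n) = redCurve F.A (W.baseChange Kb).toAffine F.int)
    (P : (W.toAffine⁄Kb).Point) (hP : N • P = 0) :
    σ • σ • P - trQ (redCurve F.A (W.baseChange Kb).toAffine F.int) hW • σ • P +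
      ((F.l : ℤ) ^ F.n) • P = 0 := by
  let r : (W.toAffine⁄Kb).Point →+
      (redCurve F.A (W.baseChange Kb).toAffine F.int).toAffine.Point := redHom F.int F.good
  have hinj : ∀ R : (W.toAffine⁄Kb).Point, N • R = 0 → r R = 0 → R = 0 := fun R hR hrR => by
    by_contra hne
    obtain ⟨p, hp, hpd⟩ := Nat.exists_prime_and_dvd (n := addOrderOf R)
      fun h => hne (AddMonoid.addOrderOf_eq_one_iff.1 h)
    obtain ⟨m, hm⟩ := hpd
    have hdvd := addOrderOf_dvd_of_nsmul_eq_zero hR
    have h0 : m • R = 0 := redHom_injOn F.int F.good hp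
      (F.level_of_dvd ((Dvd.intro m hm.symm).trans hdvd))
      (by rw [← mul_nsmul', ← hm, addOrderOf_nsmul_eq_zero])
      (by show r (m • R) = 0; rw [map_nsmul, hrR, nsmul_zero])
    have hN : N ≠ 0 := fun h => by simpa [h] using F.level
    have hpos : 0 < addOrderOf R :=
      Nat.pos_of_ne_zero fun h => hN (Nat.eq_zero_of_zero_dvd (h ▸ hdvd))
    have hm0 : 0 < m := Nat.pos_of_ne_zero fun h => by rw [hm, h, mul_zero] at hpos; omega
    have := Nat.le_of_dvd hm0 (addOrderOf_dvd_of_nsmul_eq_zero h0)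
    rw [hm] at this
    exact absurd this (not_le.2 ((Nat.lt_mul_iff_one_lt_left hm0).2 hp.one_lt))
  have hcomm : ∀ R : (W.toAffine⁄Kb).Point, N • R = 0 →
      r (σ • R) = qEnd (redCurve F.A (W.baseChange Kb).toAffine F.int) hW (r R) := by
    intro R hR
    rcases R with _ | ⟨x, y, h⟩
    · exact (congrArg r (smul_zero σ)).trans (map_zero r) |>.trans (map_zero (qEnd _ hW)).symm
    have hx : x ∈ F.A := by
      by_contra hx
      refine Affine.Point.some_ne_zero h (hinj _ hR ?_)
      show redHom F.int F.good _ = 0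
      rw [redHom_apply, redFun_eq_zero_iff, e1_some]
      exact not_le.1 fun h1 => hx ((F.A.valuation_le_one_iff x).1 h1)
    obtain ⟨hxc, hyc⟩ := F.congr_coord _ hR
    change F.A.valuation (σ x - x ^ F.l ^ F.n) < 1 at hxc
    change F.A.valuation (σ y - y ^ F.l ^ F.n) < 1 at hyc
    obtain ⟨h', he⟩ := smul_some (σ := σ) W h
    rw [he]
    have hy := y_mem F.int h.1 hx
    have hσx : σ x ∈ F.A := by
      have := add_mem ((F.A.valuation_le_one_iff _).1 hxc.le) (pow_mem hx (F.l ^ F.n))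
      rwa [sub_add_cancel] at this
    obtain ⟨k₁, e₁⟩ := redFun_of_mem F.int h hx
    obtain ⟨k₂, e₂⟩ := redFun_of_mem F.int h' hσx
    show redHom F.int F.good _ = qEnd _ hW (redHom F.int F.good _)
    rw [redHom_apply, redHom_apply, e₁, e₂, qEnd, mapHom_some]
    simp only [Affine.Point.some.injEq, iterateFrobenius_def]
    refine ⟨?_, ?_⟩
    · rw [resOf, resOf, dif_pos hσx, dif_pos hx, ← map_pow, residue_eq_iff]
      simpa using hxc
    · rw [resOf, resOf, dif_pos (y_mem F.int h'.1 hσx), dif_pos hy, ← map_pow, residue_eq_iff]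
      simpa using hyc
  refine hinj _ ?_ ?_
  · rw [nsmul_add, nsmul_sub, smul_comm N (trQ _ hW), ← smul_nsmul', ← smul_nsmul', hP, smul_zero,
      smul_zero, zsmul_zero, sub_zero, zero_add, smul_comm N, hP, zsmul_zero]
  · have hσP : N • (σ • P) = 0 := by rw [← smul_nsmul', hP, smul_zero]
    rw [map_add, map_sub, map_zsmul, map_zsmul, hcomm _ hσP, hcomm P hP]
    exact qEnd_quadratic _ hW F.pos (r P)

end level

variable (W₀ : WeierstrassCurve (𝓞 K)) [(W₀.map (algebraMap (𝓞 K) K)).IsElliptic]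

local notation "W" => W₀.map (algebraMap (𝓞 K) K)

/-- **The place of a given Frobenius element.** -/
theorem exists_frobPlace_at {N : ℕ} (hN : N ≠ 0) {v : HeightOneSpectrum (𝓞 K)}
    (hΔ : W₀.Δ ∉ v.asIdeal) (hNv : (N : 𝓞 K) ∉ v.asIdeal)
    {L : IntermediateField K Kb} [NumberField L] [IsGalois K L]
    (hL : frobSet (Kb := Kb) (W) N ⊆ L) {Q : Ideal (𝓞 L)} (hQ : Q.IsMaximal)
    (hQv : Q.under (𝓞 K) = v.asIdeal) {τ : L ≃ₐ[K] L} (hFrob : IsArithFrobAt (𝓞 K) τ Q)
    {σ : Kb ≃ₐ[K] Kb} (hτ : AlgEquiv.restrictNormalHom (F := K) L σ = τ) :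
    ∃ F : FrobPlace (W) σ N, F.l ^ F.n = Ideal.absNorm v.asIdeal ∧
      ∀ x : 𝓞 K, x ∈ v.asIdeal → F.A.valuation (algebraMap K Kb x) < 1 := by
  classical
  have hτ' : ∀ x : L, ((τ x : L) : Kb) = σ (x : Kb) := fun x => by
    rw [← hτ]; exact AlgEquiv.restrictNormalHom_apply (F := K) L σ x
  have hQbot : Q ≠ ⊥ := Ring.ne_bot_of_isMaximal_of_not_isField hQ (RingOfIntegers.not_isField _)
  let w : HeightOneSpectrum (𝓞 L) := ⟨Q, hQ.isPrime, hQbot⟩
  obtain ⟨A, hA, hloc⟩ := IsLocalRing.exists_factor_valuationRing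
    ((algebraMap L Kb).comp (w.valuation L).valuationSubring.subtype)
  have hle : ∀ x : L, w.valuation L x ≤ 1 → A.valuation (algebraMap L Kb x) ≤ 1 := fun x hx =>
    (A.valuation_le_one_iff _).2 (hA ⟨x, hx⟩)
  have hlt : ∀ x : L, w.valuation L x < 1 → A.valuation (algebraMap L Kb x) < 1 := fun x hx => by
    refine lt_of_le_of_ne (hle x hx.le) fun h1 => hx.ne ?_
    have hu := hloc.map_nonunit (⟨x, hx.le⟩ : (w.valuation L).valuationSubring)
      ((A.valuation_eq_one_iff ⟨_, hA ⟨x, hx.le⟩⟩).2 h1)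
    obtain ⟨y, hy⟩ := hu.exists_right_inv
    have hy' := congrArg (w.valuation L) (congrArg Subtype.val hy)
    rw [MulMemClass.coe_mul, map_mul] at hy'
    simp only [OneMemClass.coe_one, map_one] at hy'
    exact le_antisymm hx.le (hy'.symm.le.trans (mul_le_of_le_one_right' y.2))
  have hge : ∀ x : L, A.valuation (algebraMap L Kb x) ≤ 1 → w.valuation L x ≤ 1 := fun x hx => by
    by_contra hgt
    rw [not_le] at hgt
    have h1 := hlt x⁻¹ (by rw [map_inv₀]; exact inv_lt_one_of_one_lt₀ hgt)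
    rw [map_inv₀, map_inv₀] at h1
    have hx0 : A.valuation (algebraMap L Kb x) ≠ 0 :=
      A.valuation.ne_zero_iff.2 ((map_ne_zero _).2 fun e => by
        rw [e, map_zero] at hgt; exact not_lt_zero hgt)
    exact absurd hx (not_le.2 ((inv_lt_one₀ (pos_iff_ne_zero.2 hx0)).1 h1))
  have hint : ∀ x : 𝓞 L, A.valuation ((x : L) : Kb) ≤ 1 := fun x => hle _ (w.valuation_le_one x)
  have hQlt : ∀ x : 𝓞 L, x ∈ Q → A.valuation ((x : L) : Kb) < 1 := fun x hx =>
    hlt _ ((HeightOneSpectrum.valuation_lt_one_iff_mem w x).2 hx)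
  have hQone : ∀ x : 𝓞 L, x ∉ Q → A.valuation ((x : L) : Kb) = 1 := fun x hx => by
    have hx0 : (x : L) ≠ 0 := fun e => hx (by
      rw [show x = 0 from RingOfIntegers.coe_injective e]; exact Q.zero_mem)
    have h1 : w.valuation L (x : L) = 1 :=
      le_antisymm (w.valuation_le_one x)
        (not_lt.1 fun h => hx ((HeightOneSpectrum.valuation_lt_one_iff_mem w x).1 h))
    have h2 : A.valuation (algebraMap L Kb (x : L)⁻¹) ≤ 1 :=
      hle _ (by rw [map_inv₀, h1, inv_one])
    rw [map_inv₀, map_inv₀] at h2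
    refine le_antisymm (hint x) ?_
    rwa [inv_le_one₀ (A.valuation.pos_iff.2 ((map_ne_zero _).2 hx0))] at h2
  have hK : ∀ x : 𝓞 K, ((algebraMap (𝓞 K) (𝓞 L) x : L) : Kb) = algebraMap K Kb x := fun x => rfl
  have hKint : ∀ x : 𝓞 K, A.valuation (algebraMap K Kb x) ≤ 1 := fun x => hK x ▸ hint _
  have hKlt : ∀ x : 𝓞 K, x ∈ v.asIdeal → A.valuation (algebraMap K Kb x) < 1 := fun x hx => by
    rw [← hQv, Ideal.mem_comap] at hx
    exact hK x ▸ hQlt _ hx
  have hKone : ∀ x : 𝓞 K, x ∉ v.asIdeal → A.valuation (algebraMap K Kb x) = 1 := fun x hx => by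
    rw [← hQv, Ideal.mem_comap] at hx
    exact hK x ▸ hQone _ hx
  -- the residue field of `v`
  obtain ⟨l, hl, hlv⟩ := FA.Ext.exists_rat_prime_mem v
  have hchar := FA.Frob.residueField_charP A hl (A.mem_nonunits_iff.2 (by
    simpa using hKlt _ hlv))
  obtain ⟨n, hn0, hq⟩ : ∃ n : ℕ, n ≠ 0 ∧ Nat.card (𝓞 K ⧸ v.asIdeal) = l ^ n := by
    have := v.isMaximal
    let _ := Ideal.Quotient.field v.asIdeal
    have : Finite (𝓞 K ⧸ v.asIdeal) := Ideal.finiteQuotientOfFreeOfNeBot _ v.ne_bot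
    let _ := Fintype.ofFinite (𝓞 K ⧸ v.asIdeal)
    have : CharP (𝓞 K ⧸ v.asIdeal) l := (CharP.charP_iff_prime_eq_zero hl).2 (by
      rw [← map_natCast (Ideal.Quotient.mk v.asIdeal), Ideal.Quotient.eq_zero_iff_mem]
      exact hlv)
    obtain ⟨n, -, hcard⟩ := FiniteField.card (𝓞 K ⧸ v.asIdeal) l
    exact ⟨n, n.ne_zero, by rw [Nat.card_eq_fintype_card, hcard]⟩
  have hcongr : ∀ x : 𝓞 L, A.valuation (σ ((x : L) : Kb) - ((x : L) : Kb) ^ l ^ n) < 1 :=
      fun x => by
    have h := hFrob x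
    rw [hQv, hq] at h
    have h' := hQlt _ h
    have e : ((((MulSemiringAction.toAlgHom (𝓞 K) (𝓞 L) τ) x - x ^ l ^ n : 𝓞 L) : L) : Kb) =
        σ ((x : L) : Kb) - ((x : L) : Kb) ^ l ^ n := by
      rw [← hτ']
      push_cast
      rfl
    rwa [e] at h'
  have key : ∀ x : L, A.valuation (x : Kb) ≤ 1 →
      A.valuation (σ (x : Kb) - (x : Kb) ^ l ^ n) < 1 := fun x hx => by
    obtain ⟨a, ⟨b, hb⟩, hab⟩ := w.exists_primeCompl_mul_eq_of_integer x (hge x hx)
    have c1 := hcongr a
    have c2 := hcongr b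
    have hb1 := hQone b hb
    have e : (((a : L)) : Kb) = (x : Kb) * ((b : L) : Kb) := by
      have := congrArg (fun z : L => (z : Kb)) hab
      simpa [mul_comm] using this.symm
    rw [e, map_mul, mul_pow] at c1
    have hσb : A.valuation (σ ((b : L) : Kb)) = 1 := by
      have h := A.valuation.map_add_eq_of_lt_left (x := ((b : L) : Kb) ^ l ^ n)
        (y := σ ((b : L) : Kb) - ((b : L) : Kb) ^ l ^ n) (by rw [map_pow, hb1, one_pow]; exact c2)
      rw [add_sub_cancel, map_pow, hb1, one_pow] at h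
      exact h
    have hd := A.valuation.map_sub_lt c1
      (show A.valuation ((x : Kb) ^ l ^ n *
          (σ ((b : L) : Kb) - ((b : L) : Kb) ^ l ^ n)) < 1 from by
        rw [map_mul, map_pow]
        exact lt_of_le_of_lt (mul_le_of_le_one_left' (pow_le_one₀ zero_le hx)) c2)
    rwa [show σ (x : Kb) * σ ((b : L) : Kb) - (x : Kb) ^ l ^ n * ((b : L) : Kb) ^ l ^ n -
        (x : Kb) ^ l ^ n * (σ ((b : L) : Kb) - ((b : L) : Kb) ^ l ^ n) =
        σ ((b : L) : Kb) * (σ (x : Kb) - (x : Kb) ^ l ^ n) by ring, map_mul, hσb,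
      one_mul] at hd
  have hI : IntCoeff A.valuation ((W).baseChange Kb).toAffine :=
    ⟨hKint _, hKint _, hKint _, hKint _, hKint _⟩
  have hgood : A.valuation ((W).baseChange Kb).toAffine.Δ = 1 := by
    show A.valuation ((W).baseChange Kb).Δ = 1
    rw [WeierstrassCurve.baseChange, map_Δ, map_Δ]
    exact hKone _ hΔ
  have hlev : A.valuation (N : Kb) = 1 := by
    rw [← map_natCast (algebraMap K Kb), ← map_natCast (algebraMap (𝓞 K) K)]
    exact hKone _ hNv
  let F₀ : ∀ x ∈ frobSet (Kb := Kb) (W) N, L := fun x hx =>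
    ⟨x, hL hx⟩
  have hroot : ∀ μ : Kb, μ ^ N = 1 → A.valuation μ ≤ 1 := fun μ hμ => by
    refine ((pow_eq_one_iff_of_nonneg zero_le hN).1 ?_).le
    rw [← map_pow, hμ, map_one]
  have hpt : ∀ P : ((W).toAffine⁄Kb).Point, N • P = 0 →
      A.valuation (xP P) ≤ 1 ∧ A.valuation (yP P) ≤ 1 := fun P hP => by
    rcases P with _ | ⟨x, y, h⟩
    · exact ⟨(map_zero A.valuation).trans_le zero_le, (map_zero A.valuation).trans_le zero_le⟩
    suffices hx : A.valuation x ≤ 1 from ⟨hx, le_y_of_le_x hI h.1 hx⟩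
    by_contra hx
    have hE1 : E1 A.valuation ((W).baseChange Kb).toAffine (.some x y h) := by
      rw [e1_some]; exact not_le.1 hx
    have := redCurve_isElliptic hI hgood
    obtain ⟨p, hp, hpd⟩ := Nat.exists_prime_and_dvd
      (n := addOrderOf (Affine.Point.some x y h : ((W).toAffine⁄Kb).Point))
      fun e => Affine.Point.some_ne_zero h (AddMonoid.addOrderOf_eq_one_iff.1 e)
    obtain ⟨m, hm⟩ := hpd
    have hdvd := addOrderOf_dvd_of_nsmul_eq_zero hP
    have hpv : A.valuation (p : Kb) = 1 := by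
      obtain ⟨c, hc⟩ := (Dvd.intro m hm.symm).trans hdvd
      have hle1 : ∀ k : ℕ, A.valuation (k : Kb) ≤ 1 := fun k =>
        (A.valuation_le_one_iff _).2 (natCast_mem A k)
      refine le_antisymm (hle1 p) ?_
      rw [hc, Nat.cast_mul, map_mul] at hlev
      exact hlev.symm.le.trans (mul_le_of_le_one_right' (hle1 c))
    have h0 : m • (Affine.Point.some x y h : ((W).toAffine⁄Kb).Point) = 0 :=
      redHom_injOn hI hgood hp hpv (by rw [← mul_nsmul', ← hm, addOrderOf_nsmul_eq_zero]) (by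
        rw [map_nsmul, show redHom hI hgood (Affine.Point.some x y h) = 0 from
          (redFun_eq_zero_iff hI).2 hE1, nsmul_zero])
    have hpos : 0 < addOrderOf (Affine.Point.some x y h : ((W).toAffine⁄Kb).Point) :=
      Nat.pos_of_ne_zero fun e => hN (Nat.eq_zero_of_zero_dvd (e ▸ hdvd))
    have hm0 : 0 < m := Nat.pos_of_ne_zero fun e => by rw [hm, e, mul_zero] at hpos; omega
    have := Nat.le_of_dvd hm0 (addOrderOf_dvd_of_nsmul_eq_zero h0)
    rw [hm] at this
    exact absurd this (not_le.2 ((Nat.lt_mul_iff_one_lt_left hm0).2 hp.one_lt))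
  refine ⟨{
    A := A, l := l, n := n, prime := hl, charP := hchar, pos := hn0, level := hlev, int := hI
    good := hgood
    congr_coef := fun c hc => ?_
    congr_coord := fun P hP => ⟨key (F₀ _ (Or.inl (Or.inl (Or.inl ⟨P, hP, rfl⟩)))) (hpt P hP).1,
      key (F₀ _ (Or.inl (Or.inl (Or.inr ⟨P, hP, rfl⟩)))) (hpt P hP).2⟩
    congr_root := fun μ hμ => eq_of_congr_root hN hlev (by rw [← map_pow, hμ, map_one])
      (by rw [← pow_mul, mul_comm, pow_mul, hμ, one_pow])
      (key (F₀ μ (Or.inl (Or.inr hμ))) (hroot μ hμ)) },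
    by rw [Ideal.absNorm_apply]; exact hq.symm, hKlt⟩
  obtain ⟨z, rfl⟩ : ∃ z : 𝓞 K, algebraMap (𝓞 K) K z = c := by
    simp only [List.mem_cons, List.not_mem_nil, or_false] at hc
    rcases hc with rfl | rfl | rfl | rfl | rfl <;> exact ⟨_, rfl⟩
  have h := key (algebraMap K L (algebraMap (𝓞 K) K z)) (hKint z)
  change A.valuation (σ (algebraMap K Kb z) - algebraMap K Kb z ^ l ^ n) < 1 at h
  rwa [σ.commutes, A.valuation.map_sub_swap] at h

/-- **The trace and the determinant of a Frobenius element** modulo `N`. -/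
theorem frob_matrix (hj : ¬ IsIntegral ℤ (W).j) {N : ℕ} (hN : N ≠ 0)
    {P₁ P₂ : ((W).toAffine⁄Kb).Point} (hgen : TorGen (W) N P₁ P₂)
    {v : HeightOneSpectrum (𝓞 K)} (hΔ : W₀.Δ ∉ v.asIdeal) (hNv : (N : 𝓞 K) ∉ v.asIdeal)
    {L : IntermediateField K Kb} [NumberField L] [IsGalois K L]
    (hL : frobSet (Kb := Kb) (W) N ⊆ L) {Q : Ideal (𝓞 L)} (hQ : Q.IsMaximal)
    (hQv : Q.under (𝓞 K) = v.asIdeal) {τ : L ≃ₐ[K] L} (hFrob : IsArithFrobAt (𝓞 K) τ Q)
    {σ : Kb ≃ₐ[K] Kb} (hτ : AlgEquiv.restrictNormalHom (F := K) L σ = τ) :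
    (hgen.rep hN σ).trace = (frobTrace W₀ v : ZMod N) ∧
      (hgen.rep hN σ).det = (Ideal.absNorm v.asIdeal : ZMod N) := by
  classical
  obtain ⟨F, hq, hKlt⟩ := exists_frobPlace_at W₀ hN hΔ hNv hL hQ hQv hFrob hτ
  have hdet : (hgen.rep hN σ).det = (Ideal.absNorm v.asIdeal : ZMod N) := by
    rw [← hq]
    exact det_rep_level hj hN hgen fun μ hμ => F.congr_root μ hμ
  refine ⟨?_, hdet⟩
  have := F.charP
  have : Fact F.l.Prime := ⟨F.prime⟩
  have := residueField_isAlgClosed F.A
  have := redCurve_isElliptic F.int F.good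
  set Wk := redCurve F.A ((W).baseChange Kb).toAffine F.int with hWk
  -- the reduction map on the residue field of `v`
  have hmem : ∀ x : 𝓞 K, algebraMap K Kb x ∈ F.A := fun x => by
    by_cases hx : x ∈ v.asIdeal
    · exact (F.A.valuation_le_one_iff _).1 (hKlt x hx).le
    · refine (?_ : algebraMap (𝓞 K) Kb x ∈ F.A)
      have : IsIntegrallyClosedIn F.A.toSubring Kb :=
        inferInstanceAs (IsIntegrallyClosedIn F.A Kb)
      exact Subring.isIntegrallyClosedIn_iff.mp this
        (((RingOfIntegers.isIntegral x).algebraMap).tower_top)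
  let g : 𝓞 K →+* Res F.A := (IsLocalRing.residue F.A).comp
    ((algebraMap K Kb).comp (algebraMap (𝓞 K) K) |>.codRestrict F.A.toSubring hmem)
  let f : 𝓞 K ⧸ v.asIdeal →+* Res F.A := Ideal.Quotient.lift v.asIdeal g fun x hx => by
    show IsLocalRing.residue F.A ⟨algebraMap K Kb x, hmem x⟩ = 0
    rw [IsLocalRing.residue_eq_zero_iff, ← F.A.coe_mem_nonunits_iff, F.A.mem_nonunits_iff]
    exact hKlt x hx
  have := v.isMaximal
  let _ := Ideal.Quotient.field v.asIdeal
  have : Finite (𝓞 K ⧸ v.asIdeal) := Ideal.finiteQuotientOfFreeOfNeBot _ v.ne_bot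
  let _ := Fintype.ofFinite (𝓞 K ⧸ v.asIdeal)
  have hcard : Fintype.card (𝓞 K ⧸ v.asIdeal) = F.l ^ F.n := by
    rw [← Nat.card_eq_fintype_card, hq, Ideal.absNorm_apply]
    rfl
  have hWf : (W₀.map (Ideal.Quotient.mk v.asIdeal)).map f = Wk := by
    rw [WeierstrassCurve.map_map]
    rfl
  have hW : Wk.map (iterateFrobenius (Res F.A) F.l F.n) = Wk := by
    rw [← hWf, WeierstrassCurve.map_map (f := f)]
    congr 1
    refine RingHom.ext fun a => ?_
    rw [RingHom.comp_apply, iterateFrobenius_def, ← map_pow, ← hcard, FiniteField.pow_card]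
  have hker := natCard_point_eq_ker (W₀.map (Ideal.Quotient.mk v.asIdeal)) f hWf (qEnd Wk hW)
    fun x y hxy => by
      have h' := nonsingular_mapHom _ hW hxy
      simp only [iterateFrobenius_def, ← hcard] at h'
      exact ⟨h', by simp [qEnd, mapHom_some, iterateFrobenius_def, ← hcard]⟩
  have htr : trQ Wk hW = frobTrace W₀ v := by
    have h := natCard_ker_sub_qEnd Wk hW F.pos (c := 1) (by
      exact_mod_cast F.prime.not_dvd_one)
    rw [frobTrace, hker, h, ← hq, Nat.cast_pow]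
    ring
  have hquad : hgen.rep hN σ * hgen.rep hN σ - (frobTrace W₀ v : ZMod N) • hgen.rep hN σ +
      (((F.l : ℤ) ^ F.n : ℤ) : ZMod N) • 1 = 0 :=
    Matrix.ext_of_mulVec_single fun i => hgen.coord_injective hN (by
      rw [add_mulVec, sub_mulVec, ← mulVec_mulVec, smul_mulVec, smul_mulVec, one_mulVec,
        zero_mulVec, map_zero, map_add, map_sub, Int.cast_smul_eq_zsmul, Int.cast_smul_eq_zsmul,
        map_zsmul, map_zsmul, ← hgen.rep_spec hN, ← hgen.rep_spec hN, ← htr]
      exact quadratic_trQ (W) F hW _ (hgen.nsmul_coord _))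
  refine trace_eq_of_quadratic hquad ?_ ((Group.isUnit σ).map
    (Matrix.detMonoidHom.comp (hgen.rep hN)))
  rw [hdet, ← hq]
  push_cast
  rfl

end FA.TraceNF

end
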