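import Fermat.Agent.OpenImageNF.Glue

/-!
# The degree of a point of exact order `N` is at least a constant times `N ^ 2`

The open image has bounded index in `GL₂(ℤ / N)`, which permutes the points of exact order `N`
transitively, and there are at least `N ^ 2 / 2` of them.
-/

set_option autoImplicit false
set_option linter.unusedSectionVars false

noncomputable section

namespace FA.TraceNF

open WeierstrassCurve Matrix FA.IsogenyNF
open scoped WeierstrassCurve.Affine

universe u v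

/-- At least half of the points killed by `N` have exact order `N`. -/
theorem sq_le_two_mul_orderCount {N : ℕ} (hN : N ≠ 0) : N ^ 2 ≤ 2 * orderCount N := by
  have htel : ∀ n : ℕ, ((n : ℝ) + 2) / (2 * (n + 1)) ≤
      ∏ i ∈ Finset.Icc 2 (n + 1), (1 - ((i : ℝ) ^ 2)⁻¹) := by
    intro n
    induction n with
    | zero => norm_num
    | succ n ih =>
      rw [Finset.prod_Icc_succ_top (by omega)]
      have hf : (0 : ℝ) ≤ 1 - (((n + 1 + 1 : ℕ) : ℝ) ^ 2)⁻¹ := by
        rw [sub_nonneg]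
        exact inv_le_one_of_one_le₀ (by exact_mod_cast Nat.one_le_pow _ _ (Nat.succ_pos _))
      refine le_trans (le_of_eq ?_) (mul_le_mul_of_nonneg_right ih hf)
      push_cast
      field_simp
      ring
  have hhalf : (1 : ℝ) / 2 ≤ ∏ p ∈ N.primeFactors, (1 - ((p : ℝ) ^ 2)⁻¹) := by
    have hsub : N.primeFactors ⊆ Finset.Icc 2 (N + 1) := fun p hp => Finset.mem_Icc.2
      ⟨(Nat.prime_of_mem_primeFactors hp).two_le, (Nat.le_of_mem_primeFactors hp).trans (by omega)⟩
    refine le_trans (le_trans ?_ (htel N)) ?_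
    · rw [div_le_div_iff₀ two_pos (by positivity)]
      linarith
    rw [← Finset.prod_sdiff hsub]
    refine mul_le_of_le_one_left (Finset.prod_nonneg fun p hp => ?_)
      (Finset.prod_le_one (fun i hi => ?_) fun i hi => sub_le_self _ (by positivity))
    · exact sub_nonneg.2 (inv_le_one_of_one_le₀ (by
        exact_mod_cast Nat.one_le_pow _ _ (Nat.prime_of_mem_primeFactors hp).pos))
    · have h2 := (Finset.mem_Icc.1 (Finset.mem_sdiff.1 hi).1).1
      exact sub_nonneg.2 (inv_le_one_of_one_le₀ (by exact_mod_cast Nat.one_le_pow _ _ (by omega)))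
  have hcount : (orderCount N : ℝ) =
      (N : ℝ) ^ 2 * ∏ p ∈ N.primeFactors, (1 - ((p : ℝ) ^ 2)⁻¹) := by
    have hN' : ∏ p ∈ N.primeFactors, ((p : ℝ) ^ N.factorization p) ^ 2 = (N : ℝ) ^ 2 := by
      have h := Nat.prod_factorization_pow_eq_self hN
      rw [Finsupp.prod, Nat.support_factorization] at h
      rw [Finset.prod_pow]
      exact congrArg (· ^ 2) (by exact_mod_cast h)
    rw [orderCount, Finsupp.prod, Nat.support_factorization, Nat.cast_prod, ← hN',
      ← Finset.prod_mul_distrib]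
    refine Finset.prod_congr rfl fun p hp => ?_
    have hpp := Nat.prime_of_mem_primeFactors hp
    obtain ⟨k, hk⟩ : ∃ k, N.factorization p = k + 1 := by
      refine Nat.exists_eq_succ_of_ne_zero ?_
      rw [← Nat.support_factorization, Finsupp.mem_support_iff] at hp
      exact hp
    have hp0 : (p : ℝ) ≠ 0 := Nat.cast_ne_zero.2 hpp.ne_zero
    rw [hk, Nat.cast_sub (Nat.pow_le_pow_right hpp.pos (by omega)), Nat.cast_pow, Nat.cast_pow,
      Nat.add_sub_cancel]
    field_simp
    ring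
  have : ((N ^ 2 : ℕ) : ℝ) ≤ ((2 * orderCount N : ℕ) : ℝ) := by
    push_cast
    rw [hcount]
    nlinarith [mul_le_mul_of_nonneg_left hhalf (sq_nonneg (N : ℝ))]
  exact_mod_cast this

/-- **`GL₂(ℤ / N)` is transitive on the vectors of exact order `N`.** -/
theorem exists_gl_mulVec {N : ℕ} [NeZero N] {w : Fin 2 → ZMod N} (hw : addOrderOf w = N) :
    ∃ A : GL (Fin 2) (ZMod N), (A : Matrix (Fin 2) (Fin 2) (ZMod N)) *ᵥ Pi.single 0 1 = w := by
  set g := Nat.gcd (w 0).val (w 1).val
  have hcop : g.Coprime N := by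
    set d := Nat.gcd g N
    obtain ⟨c, hc⟩ : d ∣ N := Nat.gcd_dvd_right g N
    have hkill : c • w = 0 := by
      funext i
      have hd : d ∣ (w i).val := (Nat.gcd_dvd_left g N).trans (by
        fin_cases i
        · exact Nat.gcd_dvd_left _ _
        · exact Nat.gcd_dvd_right _ _)
      obtain ⟨e, he⟩ := hd
      rw [Pi.smul_apply, Pi.zero_apply, nsmul_eq_mul, ← ZMod.natCast_zmod_val (w i), he,
        ← Nat.cast_mul, show c * (d * e) = N * e by rw [hc]; ring, Nat.cast_mul, ZMod.natCast_self,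
        zero_mul]
    have hle := Nat.le_of_dvd
      (Nat.pos_of_ne_zero fun e => NeZero.ne N (by rw [hc, e, mul_zero]))
      (hw ▸ addOrderOf_dvd_of_nsmul_eq_zero hkill : N ∣ c)
    have hd0 : d ≠ 0 := fun e => NeZero.ne N (by rw [hc, e, zero_mul])
    rw [hc] at hle
    have hc0 : 0 < c := Nat.pos_of_ne_zero fun e => NeZero.ne N (by rw [hc, e, mul_zero])
    show d = 1
    by_contra hne
    exact absurd hle (not_le.2 ((Nat.lt_mul_iff_one_lt_left hc0).2 (by omega)))
  have hbez := congrArg (Int.cast : ℤ → ZMod N) (Nat.gcd_eq_gcd_ab (w 0).val (w 1).val)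
  push_cast [ZMod.natCast_zmod_val] at hbez
  change (g : ZMod N) = _ at hbez
  obtain ⟨u, hu⟩ := (ZMod.isUnit_iff_coprime g N).2 hcop
  set A : Matrix (Fin 2) (Fin 2) (ZMod N) :=
    !![w 0, -(↑u⁻¹ * (Nat.gcdB (w 0).val (w 1).val : ZMod N));
       w 1, ↑u⁻¹ * (Nat.gcdA (w 0).val (w 1).val : ZMod N)]
  have hA : A.det = 1 := by
    rw [show A.det = ↑u⁻¹ * (g : ZMod N) by rw [hbez]; simp [A, det_fin_two]; ring, ← hu,
      Units.inv_mul]
  refine ⟨((Matrix.isUnit_iff_isUnit_det A).2 (hA ▸ isUnit_one)).unit, ?_⟩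
  rw [IsUnit.unit_spec]
  funext i
  fin_cases i <;> simp [A]

variable {K : Type u} [Field K] [NumberField K] {Kb : Type v} [Field Kb] [DecidableEq Kb]
  [Algebra K Kb] [CharZero Kb] [IsAlgClosed Kb] [Algebra.IsAlgebraic K Kb]
  (E : WeierstrassCurve K) [E.IsElliptic]

variable (Kb) in
/-- **The index of the image of Galois is bounded.** -/
theorem exists_index_le (hj : ¬ IsIntegral ℤ E.j) :
    ∃ C : ℕ, 0 < C ∧ ∀ (N : ℕ) (hN : N ≠ 0) (P Q : (E.toAffine⁄Kb).Point) (h : TorGen E N P Q),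
      (h.rep hN).toHomUnits.range.index ≤ C := by
  obtain ⟨m, hm, hlev⟩ := OpenImageNF.exists_level_matrix Kb E hj
  refine ⟨m ^ 4, pow_pos (Nat.pos_of_ne_zero hm) 4, fun N hN P Q h => ?_⟩
  have : NeZero N := ⟨hN⟩
  set g := N.gcd m with hg
  have : NeZero g := ⟨Nat.gcd_ne_zero_left hN⟩
  let π : ZMod N →+* ZMod g := ZMod.castHom (Nat.gcd_dvd_left N m) (ZMod g)
  let Φ : GL (Fin 2) (ZMod N) →* GL (Fin 2) (ZMod g) := Units.map π.mapMatrix.toMonoidHom
  have hker : Φ.ker ≤ (h.rep hN).toHomUnits.range := fun u hu => by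
    have hentry : ∀ i j, ∃ z : ZMod N, ((u : Matrix (Fin 2) (Fin 2) (ZMod N)) - 1) i j =
        (g : ZMod N) * z := fun i j => by
      have h0 : π.mapMatrix ((u : Matrix (Fin 2) (Fin 2) (ZMod N)) - 1) i j = 0 := by
        have h1 : π.mapMatrix (u : Matrix (Fin 2) (Fin 2) (ZMod N)) = 1 := congrArg Units.val hu
        rw [map_sub, map_one, h1, sub_self, Matrix.zero_apply]
      set y := ((u : Matrix (Fin 2) (Fin 2) (ZMod N)) - 1) i j with hy
      have h2 : g ∣ y.val := by
        rw [← ZMod.natCast_eq_zero_iff, ← map_natCast π, ZMod.natCast_zmod_val]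
        exact h0
      obtain ⟨z, hz⟩ := h2
      exact ⟨z, by rw [← Nat.cast_mul, ← hz, ZMod.natCast_zmod_val]⟩
    choose Y hY using hentry
    obtain ⟨σ, hσ⟩ := hlev N hN P Q h u ((Matrix.isUnit_iff_isUnit_det _).1 u.isUnit)
      ⟨Matrix.of Y, Matrix.ext fun i j => by
        rw [Matrix.add_apply, Matrix.smul_apply, smul_eq_mul, Matrix.of_apply, ← hY,
          Matrix.sub_apply, add_sub_cancel]⟩
    exact ⟨σ, Units.ext hσ⟩
  refine le_trans (Nat.le_of_dvd (Nat.pos_of_ne_zero Subgroup.index_ne_zero_of_finite)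
    (Subgroup.index_dvd_of_le hker)) ?_
  rw [Subgroup.index_ker]
  refine (Subgroup.card_le_card_group _).trans ?_
  refine ((Nat.card_le_card_of_injective (fun u : GL (Fin 2) (ZMod g) =>
      (u : Matrix (Fin 2) (Fin 2) (ZMod g))) fun a b e => Units.ext e).trans ?_)
  rw [show Nat.card (Matrix (Fin 2) (Fin 2) (ZMod g)) = g ^ 4 by
    simp [Matrix, ← pow_mul]]
  exact Nat.pow_le_pow_left (Nat.le_of_dvd (Nat.pos_of_ne_zero hm) (Nat.gcd_dvd_right N m)) 4

variable (Kb) in
/-- **Quadratic growth of the degree of a torsion point.** -/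
theorem exists_degree_le (hj : ¬ IsIntegral ℤ E.j) :
    ∃ C : ℕ, 0 < C ∧ ∀ (x y : Kb) (h : (E.toAffine⁄Kb).Nonsingular x y),
      0 < addOrderOf (Affine.Point.some x y h : (E.toAffine⁄Kb).Point) →
      addOrderOf (Affine.Point.some x y h : (E.toAffine⁄Kb).Point) ^ 2 ≤
        C * Module.finrank K (IntermediateField.adjoin K {x, y}) := by
  obtain ⟨C, hC0, hC⟩ := exists_index_le Kb E hj
  refine ⟨2 * C, by omega, fun x y hxy hpos => ?_⟩
  have : IsAlgClosure K Kb := ⟨inferInstance, inferInstance⟩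
  have : IsGalois K Kb := IsAlgClosure.isGalois K Kb
  set P : (E.toAffine⁄Kb).Point := Affine.Point.some x y hxy with hP
  obtain ⟨N, hord⟩ : ∃ N, addOrderOf P = N := ⟨_, rfl⟩
  rw [hord] at hpos ⊢
  have : NeZero N := ⟨hpos.ne'⟩
  have hfix : (IntermediateField.adjoin K {x, y}).fixingSubgroup =
      MulAction.stabilizer (Kb ≃ₐ[K] Kb) P := by
    ext σ
    rw [IntermediateField.mem_fixingSubgroup_iff, MulAction.mem_stabilizer_iff]
    constructor
    · intro hσ
      simp only [hP, Affine.Point.algEquiv_smul_def, Affine.Point.map_some,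
        Affine.Point.some.injEq]
      exact ⟨hσ x (IntermediateField.subset_adjoin K _ (Set.mem_insert x _)),
        hσ y (IntermediateField.subset_adjoin K _ (Set.mem_insert_of_mem x rfl))⟩
    · intro hσ z hz
      simp only [hP, Affine.Point.algEquiv_smul_def, Affine.Point.map_some,
        Affine.Point.some.injEq] at hσ
      have hle : IntermediateField.adjoin K {x, y} ≤
          IntermediateField.fixedField (Subgroup.zpowers σ) := by
        rw [IntermediateField.adjoin_le_iff]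
        rintro a ha ⟨τ, hτ⟩
        have hstab : σ ∈ MulAction.stabilizer (Kb ≃ₐ[K] Kb) a := by
          rcases ha with rfl | rfl
          · exact hσ.1
          · exact hσ.2
        obtain ⟨k, rfl⟩ := Subgroup.mem_zpowers_iff.1 hτ
        exact Subgroup.zpow_mem _ hstab k
      exact hle hz ⟨σ, Subgroup.mem_zpowers σ⟩
  rw [IntermediateField.finrank_eq_fixingSubgroup_index, hfix, MulAction.index_stabilizer]
  obtain ⟨P₁, P₂, h⟩ := exists_torGen_level (Kb := Kb) E hpos.ne'
  obtain ⟨w₀, hw₀⟩ := h.coord_surj (R := P) (hord ▸ addOrderOf_nsmul_eq_zero P)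
  set H := (h.rep hpos.ne').toHomUnits.range
  set O : Set (Fin 2 → ZMod N) :=
    Set.range fun u : H => ((u : GL (Fin 2) (ZMod N)) : Matrix _ _ (ZMod N)) *ᵥ w₀
  have horb : (MulAction.orbit (Kb ≃ₐ[K] Kb) P).ncard = O.ncard := by
    rw [← Set.ncard_image_of_injective O (h.coord_injective hpos.ne')]
    congr 1
    ext R
    constructor
    · rintro ⟨σ, rfl⟩
      refine ⟨_, ⟨⟨_, σ, rfl⟩, rfl⟩, ?_⟩
      show h.coord (h.rep hpos.ne' σ *ᵥ w₀) = σ • P
      rw [← h.rep_spec, hw₀]
    · rintro ⟨_, ⟨⟨_, σ, rfl⟩, rfl⟩, rfl⟩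
      refine ⟨σ, ?_⟩
      show σ • P = h.coord (h.rep hpos.ne' σ *ᵥ w₀)
      rw [← h.rep_spec, hw₀]
  rw [horb]
  set T : Set (Fin 2 → ZMod N) := {w | addOrderOf w = N}
  have hT : T.ncard = orderCount N := by
    rw [← ncard_order_eq (Kb := Kb) E hpos.ne',
      ← Set.ncard_image_of_injective T (h.coord_injective hpos.ne')]
    congr 1
    ext R
    constructor
    · rintro ⟨w, hw, rfl⟩
      exact (addOrderOf_injective h.coord (h.coord_injective hpos.ne') w).trans hw
    · intro (hR : addOrderOf R = N)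
      obtain ⟨w, rfl⟩ := h.coord_surj (R := R) (hR ▸ addOrderOf_nsmul_eq_zero R)
      exact ⟨w, (addOrderOf_injective h.coord (h.coord_injective hpos.ne') w).symm.trans hR, rfl⟩
  obtain ⟨A₀, hA₀⟩ := exists_gl_mulVec (w := w₀) (by
    rw [← addOrderOf_injective h.coord (h.coord_injective hpos.ne'), hw₀, hord])
  have hcover : T ⊆ (fun z : (GL (Fin 2) (ZMod N) ⧸ H) × (Fin 2 → ZMod N) =>
      (z.1.out : Matrix (Fin 2) (Fin 2) (ZMod N)) *ᵥ z.2) '' (Set.univ ×ˢ O) := by
    intro w hw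
    obtain ⟨A, hA⟩ := exists_gl_mulVec hw
    set M := A * A₀⁻¹
    refine ⟨((M : GL (Fin 2) (ZMod N) ⧸ H), _), ⟨trivial, ⟨⟨_, QuotientGroup.eq.1
      (QuotientGroup.out_eq' (M : GL (Fin 2) (ZMod N) ⧸ H))⟩, rfl⟩⟩, ?_⟩
    show ((M : GL (Fin 2) (ZMod N) ⧸ H).out : Matrix (Fin 2) (Fin 2) (ZMod N)) *ᵥ
      ((((M : GL (Fin 2) (ZMod N) ⧸ H).out⁻¹ * M : GL (Fin 2) (ZMod N)) :
        Matrix (Fin 2) (Fin 2) (ZMod N)) *ᵥ w₀) = w
    rw [mulVec_mulVec, ← Units.val_mul, mul_inv_cancel_left, ← hA₀, mulVec_mulVec,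
      ← Units.val_mul, inv_mul_cancel_right, hA]
  have hle : orderCount N ≤ C * O.ncard := by
    rw [← hT]
    refine (Set.ncard_le_ncard hcover (Set.toFinite _)).trans ?_
    refine (Set.ncard_image_le (Set.toFinite _)).trans ?_
    rw [Set.ncard_prod, Set.ncard_univ, ← Subgroup.index_eq_card]
    exact Nat.mul_le_mul_right _ (hC N hpos.ne' P₁ P₂ h)
  refine (sq_le_two_mul_orderCount hpos.ne').trans ?_
  rw [mul_assoc]
  exact Nat.mul_le_mul_left 2 hle

end FA.TraceNF

end
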