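import Fermat.Agent.TraceNF.Place
import Fermat.Agent.Root.SummaryNaturalChebotarev

/-!
# The natural density of the places with `(a_v, N v)` in a given set modulo `N`

When Galois gives every invertible matrix modulo `N`, the Galois group of the field of the points
killed by `N` is `GL₂(ℤ / N)`, and Chebotarev's theorem for natural density gives the places with
trace and determinant of Frobenius in a given set.
-/

set_option autoImplicit false
set_option linter.unusedSectionVars false

noncomputable section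

namespace FA.TraceNF

open WeierstrassCurve NumberField IsDedekindDomain Matrix Filter Topology FA.IsogenyNF FA.Hecke
  FA.NaturalChebotarev
open FA.ClassNumberOne (xP yP)
open scoped WeierstrassCurve.Affine Classical

universe u v

variable {K : Type u} [Field K] [NumberField K]

/-- **A mean of an indicator is a natural density.** -/
theorem tendsto_ratio {P : HeightOneSpectrum (𝓞 K) → Prop} {c : ℝ}
    (h : HasMean (fun v => if P v then (1 : ℝ) else 0) c) :
    Tendsto (fun x : ℝ => (Nat.card {v : HeightOneSpectrum (𝓞 K) //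
        (Ideal.absNorm v.asIdeal : ℝ) ≤ x ∧ P v} : ℝ) /
        Nat.card {v : HeightOneSpectrum (𝓞 K) // (Ideal.absNorm v.asIdeal : ℝ) ≤ x})
      atTop (𝓝 c) := by
  have h' := Filter.Tendsto.div h (hasMean_one K) one_ne_zero
  rw [div_one] at h'
  refine h'.congr' ?_
  filter_upwards [eventually_gt_atTop 1] with x hx
  have hl : Real.log x / x ≠ 0 := div_ne_zero (Real.log_pos hx).ne' (by linarith)
  have h1 := natCard_le_eq_countIn {v | P v} (show (0 : ℝ) ≤ x by linarith)
  have h2 := wSum_ind {v | P v} x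
  simp only [Set.mem_ofPred_eq] at h1 h2
  rw [Pi.div_apply, smul_eq_mul, smul_eq_mul, mul_div_mul_left _ _ hl, h2, ← h1, wSum,
    Finset.sum_const, nsmul_eq_mul, mul_one, ← Nat.card_eq_finsetCard]
  congr 2
  refine Nat.card_congr (Equiv.subtypeEquivRight fun v => ?_)
  rw [mem_primesLE, Nat.le_floor_iff (by linarith : (0 : ℝ) ≤ x)]

/-- The same, whatever decides the predicate. -/
theorem tendsto_ratio_dec (P : HeightOneSpectrum (𝓞 K) → Prop) {d : ∀ v, Decidable (P v)} {c : ℝ}
    (h : HasMean (fun v => @ite ℝ (P v) (d v) 1 0) c) :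
    Tendsto (fun x : ℝ => (Nat.card {v : HeightOneSpectrum (𝓞 K) //
        (Ideal.absNorm v.asIdeal : ℝ) ≤ x ∧ P v} : ℝ) /
        Nat.card {v : HeightOneSpectrum (𝓞 K) // (Ideal.absNorm v.asIdeal : ℝ) ≤ x})
      atTop (𝓝 c) := by
  refine tendsto_ratio ?_
  convert h

/-- Only finitely many places contain a nonzero element. -/
theorem finite_mem {x : 𝓞 K} (hx : x ≠ 0) :
    {v : HeightOneSpectrum (𝓞 K) | x ∈ v.asIdeal}.Finite :=
  (Ideal.finite_factors (I := Ideal.span {x})
    (by simpa [Ideal.span_singleton_eq_bot] using hx)).subset fun v hv => by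
      show v.asIdeal ∣ Ideal.span {x}
      rw [Ideal.dvd_span_singleton]
      exact hv

variable {Kb : Type v} [Field Kb] [DecidableEq Kb] [Algebra K Kb] [CharZero Kb] [IsAlgClosed Kb]
  [Algebra.IsAlgebraic K Kb] (W₀ : WeierstrassCurve (𝓞 K))
  [(W₀.map (algebraMap (𝓞 K) K)).IsElliptic]

local notation "W" => W₀.map (algebraMap (𝓞 K) K)

theorem Δ_ne_zero : W₀.Δ ≠ 0 := fun h => (W).isUnit_Δ.ne_zero (by rw [map_Δ, h, map_zero])

/-- An automorphism fixing the points killed by `N` fixes their field and conversely. -/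
theorem fixingSubgroup_levelField (hj : ¬ IsIntegral ℤ (W).j) {N : ℕ} (hN : N ≠ 0)
    {P Q : ((W).toAffine⁄Kb).Point} (h : TorGen (W) N P Q) :
    (levelField Kb (W) N).fixingSubgroup = (h.rep hN).toHomUnits.ker := by
  ext σ
  rw [IntermediateField.mem_fixingSubgroup_iff, MonoidHom.mem_ker]
  constructor
  · intro hσ
    have hfix : ∀ R : ((W).toAffine⁄Kb).Point, N • R = 0 → σ • R = R := fun R hR => by
      have hx := hσ (xP R) (IntermediateField.subset_adjoin K _
        (Or.inl (Or.inl (Or.inl ⟨R, hR, rfl⟩))))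
      have hy := hσ (yP R) (IntermediateField.subset_adjoin K _
        (Or.inl (Or.inl (Or.inr ⟨R, hR, rfl⟩))))
      rcases R with _ | ⟨x, y, hxy⟩
      · exact smul_zero σ
      · simp only [Affine.Point.algEquiv_smul_def, Affine.Point.map_some,
          Affine.Point.some.injEq]
        exact ⟨hx, hy⟩
    refine Units.ext (Matrix.ext_of_mulVec_single fun i => h.coord_injective hN ?_)
    rw [Units.val_one, one_mulVec, MonoidHom.coe_toHomUnits, ← h.rep_spec]
    exact hfix _ (h.nsmul_coord _)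
  · intro hσ
    have h1 : h.rep hN σ = 1 := congrArg Units.val hσ
    have hfix : ∀ R : ((W).toAffine⁄Kb).Point, N • R = 0 → σ • R = R := fun R hR => by
      obtain ⟨v, rfl⟩ := h.coord_surj hR
      rw [h.rep_spec hN, h1, one_mulVec]
    have hle : levelField Kb (W) N ≤ IntermediateField.fixedField (Subgroup.zpowers σ) := by
      rw [IntermediateField.adjoin_le_iff]
      rintro a ha ⟨τ, hτ⟩
      have hstab : σ ∈ MulAction.stabilizer (Kb ≃ₐ[K] Kb) a := by
        rcases ha with ((⟨R, hR, rfl⟩ | ⟨R, hR, rfl⟩) | ha) | ⟨c, -, rfl⟩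
        · exact ((xP_smul σ R).symm.trans (by rw [hfix R hR]) : σ (xP R) = xP R)
        · exact ((yP_smul σ R).symm.trans (by rw [hfix R hR]) : σ (yP R) = yP R)
        · exact root_fixed_of_rep_eq_one hj hN h h1 ha
        · exact σ.commutes c
      obtain ⟨k, rfl⟩ := Subgroup.mem_zpowers_iff.1 hτ
      exact Subgroup.zpow_mem _ hstab k
    exact fun x hx => hle hx ⟨σ, Subgroup.mem_zpowers σ⟩

/-- **The places with `(a_v, N v)` in `S` modulo `N`.** -/
theorem hasMean_level (hj : ¬ IsIntegral ℤ (W).j) {N : ℕ} (hN : N ≠ 0)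
    {P Q : ((W).toAffine⁄Kb).Point} (h : TorGen (W) N P Q)
    (hsurj : ∀ M : Matrix (Fin 2) (Fin 2) (ZMod N), IsUnit M.det →
      ∃ σ : Kb ≃ₐ[K] Kb, h.rep hN σ = M)
    (S : Set (ZMod N × ZMod N)) :
    HasMean (fun v => if ((frobTrace W₀ v : ZMod N), (Ideal.absNorm v.asIdeal : ZMod N)) ∈ S
        then (1 : ℝ) else 0)
      ((Nat.card {M : GL (Fin 2) (ZMod N) // (M.val.trace, M.val.det) ∈ S} : ℝ) /
        Nat.card (GL (Fin 2) (ZMod N))) := by
  have : IsAlgClosure K Kb := ⟨inferInstance, inferInstance⟩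
  have : IsGalois K Kb := IsAlgClosure.isGalois K Kb
  have := finiteDimensional_levelField (Kb := Kb) (W) hN
  have : NumberField (levelField Kb (W) N) := NumberField.of_module_finite K _
  have := isGalois_levelField (Kb := Kb) (W) N
  set ψ := (h.rep hN).toHomUnits
  let res : (Kb ≃ₐ[K] Kb) →* (levelField Kb (W) N ≃ₐ[K] levelField Kb (W) N) :=
    AlgEquiv.restrictNormalHom (levelField Kb (W) N)
  have hres : Function.Surjective res := AlgEquiv.restrictNormalHom_surjective Kb
  have hψ : Function.Surjective ψ := fun u => by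
    obtain ⟨σ, hσ⟩ := hsurj u ((Matrix.isUnit_iff_isUnit_det _).1 u.isUnit)
    exact ⟨σ, Units.ext hσ⟩
  have hker : res.ker = ψ.ker :=
    (IntermediateField.restrictNormalHom_ker _).trans (fixingSubgroup_levelField W₀ hj hN h)
  let e := ((QuotientGroup.quotientKerEquivOfSurjective res hres).symm.trans
    (QuotientGroup.quotientMulEquivOfEq hker)).trans
      (QuotientGroup.quotientKerEquivOfSurjective ψ hψ)
  have he : ∀ σ, e (res σ) = ψ σ := fun σ => by
    have h1 : (QuotientGroup.quotientKerEquivOfSurjective res hres).symm (res σ) =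
        (σ : (Kb ≃ₐ[K] Kb) ⧸ res.ker) := by
      rw [MulEquiv.symm_apply_eq]; rfl
    simp only [e, MulEquiv.trans_apply, h1]
    rfl
  set C : Set (levelField Kb (W) N ≃ₐ[K] levelField Kb (W) N) :=
    {τ | ((e τ).val.trace, (e τ).val.det) ∈ S}
  have hC : ∀ g ∈ C, ∀ x, x * g * x⁻¹ ∈ C := fun g hg x => by
    show ((e (x * g * x⁻¹)).val.trace, (e (x * g * x⁻¹)).val.det) ∈ S
    rw [map_mul, map_mul, map_inv, Units.val_mul, Units.val_mul,
      Matrix.trace_mul_cycle, ← Units.val_mul, inv_mul_cancel, Units.val_one, one_mul,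
      Matrix.det_units_conj]
    exact hg
  have hcard : (Nat.card C : ℝ) / Nat.card (levelField Kb (W) N ≃ₐ[K] levelField Kb (W) N) =
      (Nat.card {M : GL (Fin 2) (ZMod N) // (M.val.trace, M.val.det) ∈ S} : ℝ) /
        Nat.card (GL (Fin 2) (ZMod N)) := by
    rw [Nat.card_congr e.toEquiv]
    congr 2
    exact Nat.card_congr (e.toEquiv.subtypeEquiv fun τ => Iff.rfl)
  have hm := hasMean_someFrobSet C hC
  rw [hcard] at hm
  refine hasMean_congr ({v | W₀.Δ ∈ v.asIdeal} ∪ {v | (N : 𝓞 K) ∈ v.asIdeal})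
    ((finite_mem (Δ_ne_zero W₀)).union (finite_mem (Nat.cast_ne_zero.2 hN))) (B := 1)
    (fun v => by split_ifs <;> norm_num) (fun v hv _ => ?_) hm
  simp only [Set.mem_union, Set.mem_ofPred_eq, not_or] at hv
  refine if_congr ⟨fun hS => ?_, ?_⟩ rfl rfl
  · obtain ⟨Q', hQ', hQv, τ, hτ⟩ := FA.Chebotarev.exists_isArithFrobAt (L := levelField Kb (W) N) v
    obtain ⟨σ, hσ⟩ := hres τ
    obtain ⟨htr, hdet⟩ := frob_matrix W₀ hj hN h hv.1 hv.2
      (IntermediateField.subset_adjoin K _) hQ' hQv hτ hσ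
    refine ⟨Q', hQ', hQv, τ, ?_, hτ⟩
    show ((e τ).val.trace, (e τ).val.det) ∈ S
    rw [← hσ, he]
    show ((h.rep hN σ).trace, (h.rep hN σ).det) ∈ S
    rwa [htr, hdet]
  · rintro ⟨Q', hQ', hQv, τ, hτC, hτ⟩
    obtain ⟨σ, hσ⟩ := hres τ
    obtain ⟨htr, hdet⟩ := frob_matrix W₀ hj hN h hv.1 hv.2
      (IntermediateField.subset_adjoin K _) hQ' hQv hτ hσ
    change ((e τ).val.trace, (e τ).val.det) ∈ S at hτC
    rw [← hσ, he] at hτC
    change ((h.rep hN σ).trace, (h.rep hN σ).det) ∈ S at hτC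
    rwa [htr, hdet] at hτC

end FA.TraceNF

end
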