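import Fermat.Agent.OpenImageNF.Glue

/-!
# The determinant at every level is the cyclotomic character

For a curve over a number field whose invariant is not an algebraic integer the determinant on the
points killed by `N` is the cyclotomic character for every `N`, so an automorphism fixing these
points fixes the `N`-th roots of unity, and one with a quadratic equation `M² - t M + q = 0` and
determinant `q` has trace `t`.
-/

set_option autoImplicit false
set_option linter.unusedSectionVars false

noncomputable section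

namespace FA.TraceNF

open WeierstrassCurve Matrix FA.IsogenyNF
open scoped WeierstrassCurve.Affine

universe u v

/-- An element of `ℤ / N` vanishing modulo every primary part of `N` vanishes. -/
theorem eq_zero_of_primary {N : ℕ} (hN : N ≠ 0) {x : ZMod N}
    (h : ∀ p (hd : p ^ N.factorization p ∣ N), p ∈ N.primeFactors →
      ZMod.castHom hd (ZMod (p ^ N.factorization p)) x = 0) : x = 0 := by
  have : NeZero N := ⟨hN⟩
  rw [← ZMod.natCast_zmod_val x, ZMod.natCast_eq_zero_iff]
  rcases eq_or_ne x.val 0 with hx | hx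
  · rw [hx]; exact dvd_zero N
  rw [← Nat.factorization_le_iff_dvd hN hx]
  intro p
  by_cases hp : p ∈ N.primeFactors
  · have h0 := h p (Nat.ordProj_dvd N p) hp
    rw [← ZMod.natCast_zmod_val x, map_natCast, ZMod.natCast_eq_zero_iff] at h0
    exact ((Nat.prime_of_mem_primeFactors hp).pow_dvd_iff_le_factorization hx).1 h0
  · rw [← Nat.support_factorization, Finsupp.notMem_support_iff] at hp
    rw [hp]
    exact Nat.zero_le _

variable {K : Type u} [Field K] [NumberField K] {Kb : Type v} [Field Kb] [DecidableEq Kb]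
  [Algebra K Kb] [CharZero Kb] [IsAlgClosed Kb] [Algebra.IsAlgebraic K Kb]
  {E : WeierstrassCurve K} [E.IsElliptic]

/-- Reduction to a primary part of `N` is the action in the coordinates of that part. -/
theorem rep_primary {N p : ℕ} (hN : N ≠ 0) (hp : p ∈ N.primeFactors)
    {P Q : (E.toAffine⁄Kb).Point} (h : TorGen E N P Q)
    (hd : p ^ (N.factorization p - 1 + 1) ∣ N) (σ : Kb ≃ₐ[K] Kb) :
    (OpenImageNF.torGen_part hN hp h).rep
        (pow_ne_zero _ (Nat.prime_of_mem_primeFactors hp).ne_zero) σ =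
      (ZMod.castHom hd (ZMod (p ^ (N.factorization p - 1 + 1)))).mapMatrix (h.rep hN σ) := by
  have : NeZero N := ⟨hN⟩
  set ξ := N / p ^ N.factorization p
  set hg := OpenImageNF.torGen_part hN hp h
  set π := ZMod.castHom hd (ZMod (p ^ (N.factorization p - 1 + 1)))
  have hred : ∀ w : Fin 2 → ZMod N, ξ • h.coord w = hg.coord (π ∘ w) := fun w => by
    have hw : w = ![(((w 0).val : ℤ) : ZMod N), (((w 1).val : ℤ) : ZMod N)] :=
      funext fun i => by fin_cases i <;> simp
    have hw' : π ∘ w = ![(((w 0).val : ℤ) : ZMod _), (((w 1).val : ℤ) : ZMod _)] :=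
      funext fun i => by
        conv_lhs => rw [hw]
        fin_cases i <;> simp [π]
    rw [hw', hg.coord_intCast]
    conv_lhs => rw [hw]
    rw [h.coord_intCast, nsmul_add, smul_comm ξ, smul_comm ξ _ Q]
  refine Matrix.ext_of_mulVec_single fun i =>
    hg.coord_injective (pow_ne_zero _ (Nat.prime_of_mem_primeFactors hp).ne_zero) ?_
  have hsingle : (Pi.single i 1 : Fin 2 → ZMod (p ^ (N.factorization p - 1 + 1))) =
      π ∘ Pi.single i 1 := funext fun j => by
    rw [Function.comp_apply, Pi.single_apply, Pi.single_apply, apply_ite π, map_one, map_zero]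
  rw [← hg.rep_spec, hsingle, ← hred, smul_nsmul', h.rep_spec hN, hred]
  exact congrArg hg.coord (funext fun j => RingHom.map_mulVec π _ _ j)

/-- **The determinant at every level is the cyclotomic character.** -/
theorem det_rep_level (hj : ¬ IsIntegral ℤ E.j) {N : ℕ} (hN : N ≠ 0)
    {P Q : (E.toAffine⁄Kb).Point} (h : TorGen E N P Q) {σ : Kb ≃ₐ[K] Kb} {a : ℕ}
    (ha : ∀ μ : Kb, μ ^ N = 1 → σ μ = μ ^ a) :
    (h.rep hN σ).det = (a : ZMod N) := by
  refine sub_eq_zero.1 (eq_zero_of_primary hN fun p hd hp => ?_)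
  have he : N.factorization p - 1 + 1 = N.factorization p := (ordCompl_spec hN hp).1
  have hd' : p ^ (N.factorization p - 1 + 1) ∣ N := he.symm ▸ hd
  suffices h0 : ZMod.castHom hd' (ZMod (p ^ (N.factorization p - 1 + 1)))
      ((h.rep hN σ).det - a) = 0 by
    generalize N.factorization p - 1 + 1 = k at he hd' h0
    subst he
    exact h0
  rw [map_sub, map_natCast, RingHom.map_det, ← rep_primary hN hp h hd', sub_eq_zero]
  refine OpenImageNF.det_rep_eq E hj (Nat.prime_of_mem_primeFactors hp)
    (OpenImageNF.torGen_part hN hp h) fun μ hμ => ha μ ?_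
  obtain ⟨d, hd''⟩ := hd'
  rw [hd'', pow_mul, hμ, one_pow]

/-- An automorphism with trivial matrix fixes the `N`-th roots of unity. -/
theorem root_fixed_of_rep_eq_one (hj : ¬ IsIntegral ℤ E.j) {N : ℕ} (hN : N ≠ 0)
    {P Q : (E.toAffine⁄Kb).Point} (h : TorGen E N P Q) {σ : Kb ≃ₐ[K] Kb}
    (hσ : h.rep hN σ = 1) {μ : Kb} (hμ : μ ^ N = 1) : σ μ = μ := by
  have : NeZero N := ⟨hN⟩
  have : NeZero (N : Kb) := ⟨Nat.cast_ne_zero.2 hN⟩
  obtain ⟨ζ, hζ⟩ := HasEnoughRootsOfUnity.exists_primitiveRoot Kb N
  obtain ⟨a, -, ha⟩ := hζ.eq_pow_of_pow_eq_one (ξ := σ ζ)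
    (by rw [← map_pow, hζ.pow_eq_one, map_one])
  have hall : ∀ ν : Kb, ν ^ N = 1 → σ ν = ν ^ a := fun ν hν => by
    obtain ⟨i, -, rfl⟩ := hζ.eq_pow_of_pow_eq_one hν
    rw [map_pow, ← ha, ← pow_mul, ← pow_mul, mul_comm]
  have h1 := det_rep_level hj hN h hall
  rw [hσ, det_one] at h1
  rw [hall μ hμ]
  conv_rhs => rw [← pow_one μ]
  refine pow_eq_pow_of_modEq ?_ hμ
  exact (ZMod.natCast_eq_natCast_iff ..).1 (by rw [← h1, Nat.cast_one])

/-- **Cayley and Hamilton**: an invertible matrix with determinant `q` and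
`M² - t M + q = 0` has trace `t`. -/
theorem trace_eq_of_quadratic {R : Type*} [CommRing R] {M : Matrix (Fin 2) (Fin 2) R} {t q : R}
    (h : M * M - t • M + q • 1 = 0) (hdet : M.det = q) (hu : IsUnit M.det) : M.trace = t := by
  have h0 : (M.trace - t) • M = 0 := by
    have hch : M * M - M.trace • M + M.det • 1 = 0 := by
      ext i j
      fin_cases i <;> fin_cases j <;>
        simp [Matrix.mul_apply, trace_fin_two, det_fin_two, Fin.sum_univ_two] <;> ring
    rw [sub_smul]
    rw [hdet] at hch
    calc M.trace • M - t • M =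
        (M * M - t • M + q • 1) - (M * M - M.trace • M + q • 1) := by abel
      _ = 0 := by rw [h, hch, sub_zero]
  have h1 : (M.trace - t) * M.det = 0 := by
    have e00 := congrFun (congrFun h0 0) 0
    have e01 := congrFun (congrFun h0 0) 1
    simp only [Matrix.smul_apply, smul_eq_mul, Matrix.zero_apply] at e00 e01
    rw [det_fin_two]
    linear_combination M 1 1 * e00 - M 1 0 * e01
  exact sub_eq_zero.1 (hu.mul_left_eq_zero.1 h1)

end FA.TraceNF

end
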