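import Fermat.Agent.TraceNF.Density
import Fermat.Agent.Root.SummarySupersingularDensity
import Fermat.Agent.TraceDistribution.Counts

/-!
# A given trace of Frobenius has natural density zero over every number field

A place with `a_v = t` has `a_v ≡ t` modulo every large prime `l`, which happens with a density at
most `4 / l`. At a place of degree one over `p ≥ 5` divisibility of `a_v` by `p` means `a_v = 0`,
so the supersingular places have density zero.
-/

set_option autoImplicit false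
set_option linter.unusedSectionVars false
set_option linter.style.haveILetI false

noncomputable section

namespace FA.TraceNF

open WeierstrassCurve NumberField IsDedekindDomain Matrix Filter Topology FA.IsogenyNF FA.Hecke
  FA.NaturalChebotarev
open scoped WeierstrassCurve.Affine Classical

universe u

variable {K : Type u} [Field K] [NumberField K]

/-- **Every curve over a number field has a model with integral coefficients.** -/
theorem exists_integralModel (E : WeierstrassCurve K) :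
    ∃ (W₀ : WeierstrassCurve (𝓞 K)) (C : VariableChange K),
      C • E = W₀.map (algebraMap (𝓞 K) K) := by
  obtain ⟨m, hm0, hm⟩ := exists_integral_multiples (A := ℤ) (K := ℚ) (L := K)
    ({E.a₁, E.a₂, E.a₃, E.a₄, E.a₆} : Finset K)
  have hm' : (m : K) ≠ 0 := Int.cast_ne_zero.2 hm0
  have hint : ∀ c ∈ ({E.a₁, E.a₂, E.a₃, E.a₄, E.a₆} : Finset K), ∀ i : ℕ,
      IsIntegral ℤ ((m : K) ^ (i + 1) * c) := fun c hc i => by
    rw [pow_succ, mul_assoc, ← zsmul_eq_mul]
    exact (isIntegral_algebraMap (R := ℤ) (x := m)).pow i |>.mul (hm c hc)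
  refine ⟨⟨⟨_, hint E.a₁ (by simp) 0⟩, ⟨_, hint E.a₂ (by simp) 1⟩, ⟨_, hint E.a₃ (by simp) 2⟩,
    ⟨_, hint E.a₄ (by simp) 3⟩, ⟨_, hint E.a₆ (by simp) 5⟩⟩,
    ⟨(Units.mk0 (m : K) hm')⁻¹, 0, 0, 0⟩, ?_⟩
  ext <;>
    simp [WeierstrassCurve.variableChange_a₁, WeierstrassCurve.variableChange_a₂,
      WeierstrassCurve.variableChange_a₃, WeierstrassCurve.variableChange_a₄,
      WeierstrassCurve.variableChange_a₆]

variable (W₀ : WeierstrassCurve (𝓞 K)) [(W₀.map (algebraMap (𝓞 K) K)).IsElliptic]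

local notation "W" => W₀.map (algebraMap (𝓞 K) K)
local notation "Kc" => AlgebraicClosure K

/-- **The distribution of `(a_v, N v)`** modulo every `N` with large prime factors only. -/
theorem exists_bound_hasMean (hj : ¬ IsIntegral ℤ (W).j) :
    ∃ B : ℕ, ∀ N : ℕ, N ≠ 0 → (∀ p ∈ N.primeFactors, B < p) →
      ∀ S : Set (ZMod N × ZMod N),
      HasMean (fun v => if ((frobTrace W₀ v : ZMod N), (Ideal.absNorm v.asIdeal : ZMod N)) ∈ S
          then (1 : ℝ) else 0)
        ((Nat.card {M : GL (Fin 2) (ZMod N) // (M.val.trace, M.val.det) ∈ S} : ℝ) /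
          Nat.card (GL (Fin 2) (ZMod N))) := by
  obtain ⟨B, hB⟩ := exists_bound_matrix (Kb := Kc) (W) hj
  refine ⟨B, fun N hN hNB S => ?_⟩
  obtain ⟨P, Q, h⟩ := exists_torGen_level (Kb := Kc) (W) hN
  exact hasMean_level W₀ hj hN h (fun M hM => hB N hN hNB P Q h M hM) S

/-- **A given trace has density zero.** -/
theorem hasMean_trace_zero (hj : ¬ IsIntegral ℤ (W).j) (t : ℤ) :
    HasMean (fun v => if frobTrace W₀ v = t then (1 : ℝ) else 0) 0 := by
  obtain ⟨B, hB⟩ := exists_bound_hasMean W₀ hj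
  refine tendsto_order.mpr ⟨fun b hb => ?_, fun ε hε => ?_⟩
  · filter_upwards [eventually_ge_atTop 1] with x hx
    refine hb.trans_le ?_
    rw [smul_eq_mul]
    exact mul_nonneg (div_nonneg (Real.log_nonneg hx) (by linarith))
      (Finset.sum_nonneg fun v _ => by split_ifs <;> norm_num)
  obtain ⟨l, hl, hlp⟩ := Nat.exists_infinite_primes (max B ⌈4 / ε⌉₊ + 1)
  haveI := Fact.mk hlp
  have hm := hB l hlp.ne_zero (fun p hp => by
    rw [hlp.primeFactors, Finset.mem_singleton] at hp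
    omega) {p | p.1 = (t : ZMod l)}
  refine (hm.eventually (eventually_lt_nhds (b := ε) ?_)).mp ?_
  · have hle := FA.Supersingular.card_trace_le (t : ZMod l)
    rw [← Nat.card_eq_fintype_card] at hle
    refine hle.trans_lt ?_
    have hlε : 4 / ε < l := (Nat.le_ceil _).trans_lt (by exact_mod_cast (by omega : ⌈4 / ε⌉₊ < l))
    rw [div_lt_iff₀ hε] at hlε
    rw [div_lt_iff₀ (by exact_mod_cast hlp.pos)]
    linarith
  filter_upwards [eventually_ge_atTop 1] with x hx hlt
  refine lt_of_le_of_lt ?_ hlt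
  rw [smul_eq_mul, smul_eq_mul]
  refine mul_le_mul_of_nonneg_left (Finset.sum_le_sum fun v _ => ?_)
    (div_nonneg (Real.log_nonneg hx) (by linarith))
  split_ifs with h1 h2 h3
  · exact le_rfl
  · exact absurd (show (frobTrace W₀ v : ZMod l) = (t : ZMod l) by rw [h1]) h2
  · exact zero_le_one
  · exact le_rfl

/-- **The supersingular places have density zero.** -/
theorem hasMean_supersingular (hj : ¬ IsIntegral ℤ (W).j) :
    HasMean (fun v => if ∃ p : ℕ, p.Prime ∧ (p : 𝓞 K) ∈ v.asIdeal ∧ (p : ℤ) ∣ frobTrace W₀ v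
        then (1 : ℝ) else 0) 0 := by
  refine hasMean_congr ({v | W₀.Δ ∈ v.asIdeal} ∪ {v | ((6 : ℕ) : 𝓞 K) ∈ v.asIdeal})
    ((finite_mem (Δ_ne_zero W₀)).union (finite_mem (Nat.cast_ne_zero.2 (by norm_num)))) (B := 1)
    (fun v => by split_ifs <;> norm_num) (fun v hv hprime => ?_) (hasMean_trace_zero W₀ hj 0)
  simp only [Set.mem_union, Set.mem_ofPred_eq, not_or] at hv
  have hqv : ((Ideal.absNorm v.asIdeal : ℕ) : 𝓞 K) ∈ v.asIdeal := Ideal.absNorm_mem _
  have hq5 : 5 ≤ Ideal.absNorm v.asIdeal := by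
    by_contra hlt
    push Not at hlt
    refine hv.2 ?_
    have hd : Ideal.absNorm v.asIdeal ∣ 6 := by
      revert hprime
      interval_cases h : Ideal.absNorm v.asIdeal <;> norm_num
    obtain ⟨c, hc⟩ := hd
    rw [hc, Nat.cast_mul]
    exact v.asIdeal.mul_mem_right _ hqv
  refine if_congr ⟨fun h => ?_, fun h => ⟨_, hprime, hqv, h ▸ dvd_zero _⟩⟩ rfl rfl
  obtain ⟨p, hp, hpv, hd⟩ := h
  have hpq : p = Ideal.absNorm v.asIdeal := by
    by_contra hne
    refine v.isPrime.ne_top ((Ideal.eq_top_iff_one _).2 ?_)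
    obtain ⟨a, b, hab⟩ := Nat.isCoprime_iff_coprime.2 ((Nat.coprime_primes hp hprime).2 hne)
    have e : (1 : 𝓞 K) =
        (a : 𝓞 K) * (p : 𝓞 K) + (b : 𝓞 K) * (Ideal.absNorm v.asIdeal : 𝓞 K) := by
      have := congrArg (Int.cast : ℤ → 𝓞 K) hab
      push_cast at this
      exact this.symm
    rw [e]
    exact add_mem (v.asIdeal.mul_mem_left _ hpv) (v.asIdeal.mul_mem_left _ hqv)
  subst hpq
  obtain ⟨c, hc⟩ := hd
  have hH := frobTrace_sq_le W₀ hv.1
  rcases eq_or_ne c 0 with rfl | hc0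
  · rw [hc, mul_zero]
  exfalso
  have hc1 : 1 ≤ c ^ 2 := by nlinarith [mul_self_pos.2 hc0]
  have hq5' : (5 : ℤ) ≤ Ideal.absNorm v.asIdeal := by exact_mod_cast hq5
  rw [hc, mul_pow] at hH
  nlinarith [mul_le_mul_of_nonneg_left hc1 (sq_nonneg (Ideal.absNorm v.asIdeal : ℤ))]

/-- **The density of a prime dividing the number of points.** -/
theorem exists_bound_dvd_card (hj : ¬ IsIntegral ℤ (W).j) :
    ∃ B : ℕ, ∀ l : ℕ, l.Prime → B < l →
      HasMean (fun v => if l ∣ Nat.card (W₀.map (Ideal.Quotient.mk v.asIdeal)).toAffine.Point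
          then (1 : ℝ) else 0)
        (((l : ℝ) ^ 2 - 2) / (((l : ℝ) - 1) * ((l : ℝ) ^ 2 - 1))) := by
  obtain ⟨B, hB⟩ := exists_bound_hasMean W₀ hj
  refine ⟨B, fun l hl hlt => ?_⟩
  haveI := Fact.mk hl
  have h := hB l hl.ne_zero (fun p hp => by
    rw [hl.primeFactors, Finset.mem_singleton] at hp
    omega) {p | p.1 = p.2 + 1}
  have hval : ((Nat.card {M : GL (Fin 2) (ZMod l) // M.val.trace = M.val.det + 1} : ℝ) /
      Nat.card (GL (Fin 2) (ZMod l))) =
      ((l : ℝ) ^ 2 - 2) / (((l : ℝ) - 1) * ((l : ℝ) ^ 2 - 1)) := by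
    have hc := FA.TraceDist.card_fixing (k := ZMod l)
    rw [ZMod.card] at hc
    rw [FA.TraceDist.card_gl2, ZMod.card]
    have e : (Nat.card {M : GL (Fin 2) (ZMod l) // M.val.trace = M.val.det + 1} : ℝ) =
        (l : ℝ) ^ 3 - 2 * l := by
      rw [eq_sub_iff_add_eq]
      exact_mod_cast hc
    have h1l : (1 : ℕ) ≤ l ^ 2 := Nat.one_le_pow _ _ hl.pos
    have hll : l ≤ l ^ 2 := Nat.le_self_pow two_ne_zero l
    rw [e, Nat.cast_mul, Nat.cast_sub h1l, Nat.cast_sub hll, Nat.cast_pow, Nat.cast_one]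
    have h2' : (2 : ℝ) ≤ l := by exact_mod_cast hl.two_le
    have a1 : (l : ℝ) - 1 ≠ 0 := by linarith
    have a2 : (l : ℝ) ^ 2 - 1 ≠ 0 := by nlinarith
    have a3 : (l : ℝ) ^ 2 - l ≠ 0 := by nlinarith
    field_simp
  simp only [Set.mem_ofPred_eq] at h
  rw [hval] at h
  refine Filter.Tendsto.congr (fun x => ?_) h
  refine congrArg _ (Finset.sum_congr rfl fun v _ => ?_)
  have e : l ∣ Nat.card (W₀.map (Ideal.Quotient.mk v.asIdeal)).toAffine.Point ↔
      (frobTrace W₀ v : ZMod l) = (Ideal.absNorm v.asIdeal : ZMod l) + 1 := by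
    rw [frobTrace, ← ZMod.natCast_eq_zero_iff]
    push_cast
    constructor <;> intro h <;> linear_combination -h
  simp only
  by_cases hd : l ∣ Nat.card (W₀.map (Ideal.Quotient.mk v.asIdeal)).toAffine.Point
  · rw [if_pos (e.1 hd), if_pos hd]
  · rw [if_neg (e.not.1 hd), if_neg hd]

end FA.TraceNF

end
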